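import Mathlib

/-!
Helper library for statement S57 (patching, descent step).

Strategy: `N` is finite free over the power series ring through `φ`, hence the images of a regular
system of parameters form a weakly regular sequence on `N` of length `r + 1`.  The quotient of `N`
by this sequence has finite length, so its projective dimension is at most `r + 1`
(the projective dimension of the residue field).  The formula
`pd (N / (rs) N) = pd N + length rs` then forces `N` to be projective, hence free.
-/

namespace Fermat.Agent.S57Lib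

open CategoryTheory Abelian IsLocalRing RingTheory.Sequence Pointwise

universe u

theorem hasPD_of_isFiniteLength {A : Type u} [CommRing A] [IsLocalRing A]
    [IsNoetherianRing A] (xs : List A) (hreg : IsRegular A xs)
    (hmax : Ideal.ofList xs = maximalIdeal A)
    (L : Type u) [AddCommGroup L] [Module A L] (hL : IsFiniteLength A L) :
    HasProjectiveDimensionLE (ModuleCat.of A L) xs.length := by
  have hk : HasProjectiveDimensionLE
      (ModuleCat.of A (Shrink.{u} (A ⧸ Ideal.ofList xs))) xs.length := by
    rw [← projectiveDimension_le_iff, ModuleCat.projectiveDimension_quotient_eq_length xs hreg]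
  induction hL with
  | of_subsingleton =>
    rename_i M _ _ _
    have : Limits.IsZero (ModuleCat.of A M) := ModuleCat.isZero_of_subsingleton _
    have := this.hasProjectiveDimensionLT_zero
    exact hasProjectiveDimensionLT_of_ge _ 0 _ (Nat.zero_le _)
  | of_simple_quotient _ ih =>
    rename_i M _ _ N hs _
    obtain ⟨I, hI, ⟨e⟩⟩ := isSimpleModule_iff_quot_maximal.mp hs
    have hI' : I = Ideal.ofList xs := by
      rw [hmax]; exact IsLocalRing.eq_maximalIdeal hI
    subst hI'
    have h3 : HasProjectiveDimensionLE (ModuleCat.of A (M ⧸ N)) xs.length :=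
      ModuleCat.hasProjectiveDimensionLE_of_linearEquiv
        (M := ModuleCat.of A (Shrink.{u} (A ⧸ Ideal.ofList xs)))
        (N := ModuleCat.of A (M ⧸ N))
        ((Shrink.linearEquiv A _).trans e.symm) xs.length
    let S : ShortComplex (ModuleCat.{u} A) :=
      ModuleCat.shortComplexOfCompEqZero N.subtype N.mkQ (by ext x; simp)
    have hS : S.ShortExact :=
      ModuleCat.shortComplex_shortExact S (LinearMap.exact_subtype_mkQ N)
        N.injective_subtype N.mkQ_surjective
    exact hS.hasProjectiveDimensionLT_X₂ _ ih h3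

theorem isArtinian_quot_maximalIdeal_smul_top {S : Type u} [CommRing S] [IsLocalRing S]
    (N : Type u) [AddCommGroup N] [Module S N] [Module.Finite S N] :
    IsArtinian S (N ⧸ (maximalIdeal S • (⊤ : Submodule S N))) := by
  let _ : Field (S ⧸ maximalIdeal S) := Ideal.Quotient.field _
  have : Module.Finite (S ⧸ maximalIdeal S) (N ⧸ (maximalIdeal S • (⊤ : Submodule S N))) :=
    Module.Finite.of_restrictScalars_finite S _ _
  exact isArtinian_of_surjective_algebraMap (R := S ⧸ maximalIdeal S)
    Ideal.Quotient.mk_surjective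

theorem free_of_semilinear_free {S A : Type u} [CommRing S] [CommRing A] [IsLocalRing S]
    [IsLocalRing A] [IsNoetherianRing A] (φ : S →+* A)
    (N : Type u) [AddCommGroup N] [Module A N]
    (d : ℕ) (e : (Fin d → S) ≃+ N) (he : ∀ (s : S) (c : Fin d → S), e (s • c) = φ s • e c)
    (as : List S) (has : IsWeaklyRegular S as) (hasmax : Ideal.ofList as = maximalIdeal S)
    (hloc : ∀ a ∈ as, φ a ∈ maximalIdeal A)
    (xs : List A) (hreg : IsRegular A xs) (hmax : Ideal.ofList xs = maximalIdeal A)
    (hlen : xs.length ≤ as.length) : Module.Free A N ∧ Module.Finite A N := by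
  let _ : Algebra S A := φ.toAlgebra
  let _ : Module S N := Module.compHom N φ
  have : IsScalarTower S A N := ⟨fun s a n => by
     show (φ s * a) • n = φ s • (a • n)
     rw [mul_smul]⟩
  let e' : (Fin d → S) ≃ₗ[S] N := { e with map_smul' := he }
  have : Module.Free S N := Module.Free.of_equiv e'
  have : Module.Finite S N := Module.Finite.equiv e'
  have hfin : Module.Finite A N := Module.Finite.of_restrictScalars_finite S A N
  refine ⟨?_, hfin⟩
  by_cases hN : Subsingleton N
  · exact Module.Free.of_subsingleton A N
  rw [not_subsingleton_iff_nontrivial] at hN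
  have h1 : IsWeaklyRegular N as :=
    ((TensorProduct.rid S N).isWeaklyRegular_congr as).mp has.isWeaklyRegular_lTensor
  have h2 : IsWeaklyRegular N (as.map (algebraMap S A)) :=
    (isWeaklyRegular_map_algebraMap_iff A N as).mpr h1
  have hpd := ModuleCat.projectiveDimension_quotient_eq_add_length_of_isWeaklyRegular
    (ModuleCat.of A N) (as.map (algebraMap S A)) h2 (by
      intro r hr
      obtain ⟨a, ha, rfl⟩ := List.mem_map.mp hr
      exact hloc a ha)
  have hart : IsArtinian S (N ⧸ Ideal.ofList (as.map (algebraMap S A)) • (⊤ : Submodule A N)) := by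
    have := isArtinian_quot_maximalIdeal_smul_top (S := S) N
    refine isArtinian_of_surjective (N ⧸ (maximalIdeal S • (⊤ : Submodule S N)))
      (Submodule.liftQ _ ((Submodule.mkQ
        (Ideal.ofList (as.map (algebraMap S A)) • (⊤ : Submodule A N))).restrictScalars S) ?_) ?_
    · rw [← hasmax, Submodule.smul_le]
      intro r hr n _
      simp only [LinearMap.mem_ker, LinearMap.coe_restrictScalars, Submodule.mkQ_apply,
        Submodule.Quotient.mk_eq_zero]
      rw [← algebraMap_smul A r n]
      refine Submodule.smul_mem_smul ?_ trivial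
      rw [← Ideal.map_ofList]
      exact Ideal.mem_map_of_mem _ hr
    · intro q
      obtain ⟨n, rfl⟩ := Submodule.mkQ_surjective _ q
      exact ⟨Submodule.mkQ _ n, by simp⟩
  have hfl : IsFiniteLength A (N ⧸ Ideal.ofList (as.map (algebraMap S A)) • (⊤ : Submodule A N)) :=
    isFiniteLength_iff_isNoetherian_isArtinian.mpr ⟨inferInstance, isArtinian_of_tower S hart⟩
  have hle := hasPD_of_isFiniteLength xs hreg hmax _ hfl
  rw [← projectiveDimension_le_iff, hpd] at hle
  have hle0 : projectiveDimension (ModuleCat.of A N) ≤ (0 : ℕ) := by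
    simp only [List.length_map] at hle
    have h3 : projectiveDimension (ModuleCat.of A N) + (as.length : ℕ) ≤
        ((0 : ℕ) : WithBot ℕ∞) + (as.length : ℕ) := by
      refine hle.trans ?_
      simp only [Nat.cast_zero, zero_add]
      exact_mod_cast hlen
    exact (ENat.WithBot.add_le_add_natCast_right_iff).mp h3
  rw [projectiveDimension_le_iff] at hle0
  have hproj : Projective (ModuleCat.of A N) :=
    (projective_iff_hasProjectiveDimensionLE_zero _).mpr hle0
  have : Module.Projective A N := by
    rw [← IsProjective.iff_projective] at hproj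
    exact hproj
  exact Module.free_of_flat_of_isLocalRing

theorem isRegular_cons_of_surjective {B B' : Type*} [CommRing B] [CommRing B'] (f : B →+* B')
    (hf : Function.Surjective f) (x : B) (hx : IsSMulRegular B x)
    (hker : RingHom.ker f = Ideal.span {x})
    (rs : List B) (h : IsRegular B' (rs.map f)) : IsRegular B (x :: rs) := by
  rw [isRegular_cons_iff]
  refine ⟨hx, ?_⟩
  let _ : Module B B' := Module.compHom B' f
  let g : B →ₗ[B] B' := { f with map_smul' := fun a b => by simp; rfl }
  have hg : Function.Surjective g := hf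
  have hkg : x • (⊤ : Submodule B B) = LinearMap.ker g := by
    have : LinearMap.ker g = RingHom.ker f := by
      ext y; simp [g, RingHom.mem_ker]
    rw [this, hker, ← Submodule.ideal_span_singleton_smul]
    simp
  let e : QuotSMulTop x B ≃ₗ[B] B' :=
    (Submodule.quotEquivOfEq _ _ hkg).trans (g.quotKerEquivOfSurjective hg)
  refine (AddEquiv.isRegular_congr (e := e.toAddEquiv) (as := rs) (bs := rs.map f) ?_).mpr h
  refine List.forall₂_map_right_iff.mpr (List.forall₂_same.mpr fun r _ y => ?_)
  exact e.map_smul r y

theorem ofList_cons_isMaximal_of_surjective {B B' : Type*} [CommRing B] [CommRing B']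
    (f : B →+* B') (hf : Function.Surjective f) (x : B)
    (hker : RingHom.ker f = Ideal.span {x})
    (rs : List B) (h : (Ideal.ofList (rs.map f)).IsMaximal) :
    (Ideal.ofList (x :: rs)).IsMaximal := by
  have : Ideal.ofList (x :: rs) = Ideal.comap f (Ideal.ofList (rs.map f)) := by
    rw [Ideal.ofList_cons, ← Ideal.map_ofList, Ideal.comap_map_of_surjective f hf, ← hker,
      sup_comm]
    rfl
  rw [this]
  exact Ideal.comap_isMaximal_of_surjective f hf

/-- The standard regular system of parameters of a power series ring over a DVR. -/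
noncomputable def paramSeq {𝒪 : Type*} [CommRing 𝒪] (ϖ : 𝒪) (r : ℕ) :
    List (MvPowerSeries (Fin r) 𝒪) :=
  (List.ofFn fun i : Fin r => (MvPowerSeries.X i : MvPowerSeries (Fin r) 𝒪)) ++ [MvPowerSeries.C ϖ]

theorem paramSeq_spec {𝒪 : Type*} [CommRing 𝒪] [IsDomain 𝒪] [IsDiscreteValuationRing 𝒪]
    (ϖ : 𝒪) (hϖ : Irreducible ϖ) (r : ℕ) :
    IsRegular (MvPowerSeries (Fin r) 𝒪) (paramSeq ϖ r) ∧
      (Ideal.ofList (paramSeq ϖ r)).IsMaximal := by
  induction r with
  | zero =>
    let f : MvPowerSeries (Fin 0) 𝒪 →+* ResidueField 𝒪 :=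
      (residue 𝒪).comp MvPowerSeries.constantCoeff
    have hf : Function.Surjective f :=
      (residue_surjective).comp (fun a => ⟨MvPowerSeries.C a, by simp⟩)
    have hker : RingHom.ker f = Ideal.span {(MvPowerSeries.C ϖ : MvPowerSeries (Fin 0) 𝒪)} := by
      ext p
      rw [RingHom.mem_ker, Ideal.mem_span_singleton]
      simp only [f, RingHom.comp_apply, residue_eq_zero_iff, hϖ.maximalIdeal_eq,
        Ideal.mem_span_singleton]
      constructor
      · rintro ⟨c, hc⟩
        refine ⟨MvPowerSeries.C c, ?_⟩
        rw [← map_mul, ← hc]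
        ext m
        simp [Subsingleton.eq_zero m]
      · rintro ⟨c, rfl⟩
        simp
    have hseq : paramSeq ϖ 0 = (MvPowerSeries.C ϖ : MvPowerSeries (Fin 0) 𝒪) :: [] := by
      simp [paramSeq]
    rw [hseq]
    refine ⟨isRegular_cons_of_surjective f hf _ ?_ hker [] ?_,
      ofList_cons_isMaximal_of_surjective f hf _ hker [] ?_⟩
    · intro y z h
      refine mul_left_cancel₀ ?_ h
      intro h0
      exact hϖ.ne_zero (MvPowerSeries.C_injective (by simpa using h0))
    · simpa using IsRegular.nil (ResidueField 𝒪) (ResidueField 𝒪)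
    · simpa using Ideal.bot_isMaximal
  | succ r ih =>
    let f : MvPowerSeries (Fin (r + 1)) 𝒪 →+* MvPowerSeries (Fin r) 𝒪 :=
      (PowerSeries.constantCoeff).comp (MvPowerSeries.finSuccEquiv 𝒪 r).toRingEquiv.toRingHom
    have hf : Function.Surjective f :=
      (PowerSeries.constantCoeff_surj).comp (MvPowerSeries.finSuccEquiv 𝒪 r).surjective
    have hker : RingHom.ker f =
        Ideal.span {(MvPowerSeries.X 0 : MvPowerSeries (Fin (r + 1)) 𝒪)} := by
      ext p
      rw [RingHom.mem_ker, Ideal.mem_span_singleton]
      simp only [f, RingHom.comp_apply]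
      rw [← PowerSeries.X_dvd_iff, ← MvPowerSeries.finSuccEquiv_X_zero]
      exact map_dvd_iff (MvPowerSeries.finSuccEquiv 𝒪 r)
    have hseq : paramSeq ϖ (r + 1) = (MvPowerSeries.X 0 : MvPowerSeries (Fin (r + 1)) 𝒪) ::
        ((List.ofFn fun i : Fin r => (MvPowerSeries.X i.succ : MvPowerSeries (Fin (r + 1)) 𝒪))
          ++ [MvPowerSeries.C ϖ]) := by
      simp [paramSeq, List.ofFn_succ]
    have hmap : ((List.ofFn fun i : Fin r =>
        (MvPowerSeries.X i.succ : MvPowerSeries (Fin (r + 1)) 𝒪))
          ++ [MvPowerSeries.C ϖ]).map f = paramSeq ϖ r := by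
      simp [paramSeq, f, List.map_ofFn, Function.comp_def]
    rw [hseq]
    refine ⟨isRegular_cons_of_surjective f hf _ ?_ hker _ ?_,
      ofList_cons_isMaximal_of_surjective f hf _ hker _ ?_⟩
    · intro y z h
      refine mul_left_cancel₀ ?_ h
      intro h0
      have := congrArg (MvPowerSeries.finSuccEquiv 𝒪 r) h0
      rw [MvPowerSeries.finSuccEquiv_X_zero, map_zero] at this
      exact PowerSeries.X_ne_zero this
    · rw [hmap]; exact ih.1
    · rw [hmap]; exact ih.2

theorem repr_mem_of_mem_smul_top {A N ι : Type*} [CommRing A] [AddCommGroup N] [Module A N]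
    (β : Module.Basis ι A N) (I : Ideal A) {x : N} (hx : x ∈ I • (⊤ : Submodule A N)) (i : ι) :
    β.repr x i ∈ I := by
  induction hx using Submodule.smul_induction_on' with
  | smul r hr n _ =>
    simp only [map_smul, Finsupp.smul_apply, smul_eq_mul]
    exact I.mul_mem_right _ hr
  | add x _ y _ hx hy =>
    simp only [map_add, Finsupp.add_apply]
    exact I.add_mem hx hy

theorem descent {A R N M : Type*} [CommRing A] [CommRing R] [AddCommGroup N] [Module A N]
    [AddCommGroup M] [Module R M] [Nontrivial M] [Module.Free A N] [Module.Finite A N]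
    (ψ : A →+* R) (hψ : Function.Surjective ψ) (π : N →+ M)
    (hπ : ∀ (f : A) (x : N), π (f • x) = ψ f • π x) (hπs : Function.Surjective π)
    (I : Ideal A) (hI : I ≤ RingHom.ker ψ)
    (hker : ∀ x : N, π x = 0 ↔ x ∈ I • (⊤ : Submodule A N)) :
    Module.Free R M ∧ Module.annihilator R M = ⊥ ∧ RingHom.ker ψ = I := by
  have : Nontrivial R := Module.nontrivial R M
  have : Nontrivial A := ψ.domain_nontrivial
  let β := Module.Free.chooseBasis A N
  have hsum : ∀ c : Module.Free.ChooseBasisIndex A N → A,
      π (∑ i, c i • β i) = ∑ i, ψ (c i) • π (β i) := by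
    intro c
    rw [map_sum]
    exact Finset.sum_congr rfl fun i _ => hπ _ _
  have hli : LinearIndependent R (fun i => π (β i)) := by
    rw [Fintype.linearIndependent_iff]
    intro g hg i
    choose c hc using fun i => hψ (g i)
    have h0 : π (∑ i, c i • β i) = 0 := by
      rw [hsum]; simpa [hc] using hg
    have h1 := repr_mem_of_mem_smul_top β I ((hker _).mp h0) i
    have h2 : β.repr (∑ i, c i • β i) i = c i := by
      rw [Module.Basis.repr_sum_self]
    rw [h2] at h1
    rw [← hc i]
    exact hI h1
  have hsp : ⊤ ≤ Submodule.span R (Set.range fun i => π (β i)) := by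
    intro m _
    obtain ⟨x, rfl⟩ := hπs m
    rw [← β.sum_repr x, hsum]
    exact Submodule.sum_mem _ fun i _ => Submodule.smul_mem _ _ (Submodule.subset_span ⟨i, rfl⟩)
  have hfree : Module.Free R M := Module.Free.of_basis (Module.Basis.mk hli hsp)
  refine ⟨hfree, Module.annihilator_eq_bot.mpr inferInstance, le_antisymm ?_ hI⟩
  intro f hf
  have hne : Nonempty (Module.Free.ChooseBasisIndex A N) := by
    by_contra hemp
    rw [not_nonempty_iff] at hemp
    have : Subsingleton N := β.repr.toEquiv.subsingleton
    obtain ⟨m, hm⟩ := exists_ne (0 : M)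
    obtain ⟨x, rfl⟩ := hπs m
    exact hm (by rw [Subsingleton.elim x 0, map_zero])
  obtain ⟨i⟩ := hne
  have h0 : π (f • β i) = 0 := by
    rw [hπ, RingHom.mem_ker.mp hf, zero_smul]
  have h1 := repr_mem_of_mem_smul_top β I ((hker _).mp h0) i
  simpa using h1

end Fermat.Agent.S57Lib
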